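import Mathlib

/-!
# S56 / P3 (helper846): 2×2 matrix groups all of whose elements (in a normal subgroup with cyclic
quotient) have a repeated eigenvalue `±1` have a common eigenvector.  Mathlib only.
-/

set_option autoImplicit false

namespace Fermat.Agent.S56.H846

open Matrix

variable {k : Type*} [Field k]

/-- `det (α u - 1) = α² det u - α tr u + 1` for `2 × 2` matrices. -/
theorem det_smul_sub_one_fin_two (α : k) (u : Matrix (Fin 2) (Fin 2) k) :
    (α • u - 1).det = α ^ 2 * u.det - α * u.trace + 1 := by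
  simp only [Matrix.det_fin_two, Matrix.trace_fin_two, Matrix.sub_apply, Matrix.smul_apply,
    Matrix.one_apply_eq, Matrix.one_apply_ne, smul_eq_mul, ne_eq, Fin.isValue,
    zero_ne_one, not_false_eq_true, one_ne_zero, sub_zero]
  ring

/-- For a trace-zero, determinant-zero `2 × 2` matrix `ν`: `ν X ν = tr(X ν) ν`. -/
theorem nil_mul_mul_nil_fin_two (ν X : Matrix (Fin 2) (Fin 2) k) (ht : ν.trace = 0)
    (hd : ν.det = 0) : ν * X * ν = (X * ν).trace • ν := by
  rw [Matrix.trace_fin_two] at ht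
  rw [Matrix.det_fin_two] at hd
  have hd' : ν 1 1 = -ν 0 0 := by linear_combination ht
  rw [hd'] at hd
  ext i j
  fin_cases i <;> fin_cases j
  · simp [Matrix.mul_apply, Fin.sum_univ_two, Matrix.trace_fin_two, hd']
    linear_combination (-(X 1 1)) * hd
  · simp [Matrix.mul_apply, Fin.sum_univ_two, Matrix.trace_fin_two, hd']
    linear_combination (X 0 1) * hd
  · simp [Matrix.mul_apply, Fin.sum_univ_two, Matrix.trace_fin_two, hd']
    linear_combination (X 1 0) * hd
  · simp [Matrix.mul_apply, Fin.sum_univ_two, Matrix.trace_fin_two, hd']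
    linear_combination (-(X 0 0)) * hd

/-- A trace-zero, determinant-zero `2 × 2` matrix squares to zero. -/
theorem nil_mul_self_fin_two (ν : Matrix (Fin 2) (Fin 2) k) (ht : ν.trace = 0)
    (hd : ν.det = 0) : ν * ν = 0 := by
  have h := nil_mul_mul_nil_fin_two ν 1 ht hd
  rw [Matrix.mul_one, Matrix.one_mul, ht, zero_smul] at h
  exact h

/-- The kernel of a nonzero trace-zero `2 × 2` matrix `ν` is spanned by any nonzero vector in its
image. -/
theorem exists_smul_of_mulVec_eq_zero (ν : Matrix (Fin 2) (Fin 2) k) (ht : ν.trace = 0)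
    (x w : Fin 2 → k) (hv : ν.mulVec x ≠ 0) (hw : ν.mulVec w = 0) :
    ∃ c : k, w = c • ν.mulVec x := by
  rw [Matrix.trace_fin_two] at ht
  have hd' : ν 1 1 = -ν 0 0 := by linear_combination ht
  have hw0 : ν 0 0 * w 0 + ν 0 1 * w 1 = 0 := by
    have := congrFun hw 0
    simpa [Matrix.mulVec, dotProduct, Fin.sum_univ_two] using this
  have hw1 : ν 1 0 * w 0 + ν 1 1 * w 1 = 0 := by
    have := congrFun hw 1
    simpa [Matrix.mulVec, dotProduct, Fin.sum_univ_two] using this
  have hv0 : ν.mulVec x 0 = ν 0 0 * x 0 + ν 0 1 * x 1 := by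
    simp [Matrix.mulVec, dotProduct, Fin.sum_univ_two]
  have hv1 : ν.mulVec x 1 = ν 1 0 * x 0 + ν 1 1 * x 1 := by
    simp [Matrix.mulVec, dotProduct, Fin.sum_univ_two]
  have hdet : w 0 * ν.mulVec x 1 - w 1 * ν.mulVec x 0 = 0 := by
    rw [hv0, hv1, hd']
    rw [hd'] at hw1
    linear_combination (x 0) * hw1 - (x 1) * hw0
  by_cases h0 : ν.mulVec x 0 = 0
  · have h1 : ν.mulVec x 1 ≠ 0 := by
      intro h1
      apply hv
      ext i
      fin_cases i
      · exact h0
      · exact h1
    refine ⟨w 1 / ν.mulVec x 1, ?_⟩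
    ext i
    fin_cases i
    · simp only [Fin.zero_eta, Fin.isValue, Pi.smul_apply, smul_eq_mul, h0, mul_zero]
      rw [h0, mul_zero, sub_zero] at hdet
      rcases mul_eq_zero.1 hdet with h | h
      · exact h
      · exact absurd h h1
    · simp only [Fin.mk_one, Fin.isValue, Pi.smul_apply, smul_eq_mul]
      field_simp
  · refine ⟨w 0 / ν.mulVec x 0, ?_⟩
    ext i
    fin_cases i
    · simp only [Fin.zero_eta, Fin.isValue, Pi.smul_apply, smul_eq_mul]
      field_simp
    · simp only [Fin.mk_one, Fin.isValue, Pi.smul_apply, smul_eq_mul]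
      field_simp
      linear_combination -hdet


/-- The subgroup of elements of `G` having `v` as an eigenvector. -/
def eigStab {G : Type*} [Group G] (R : G →* Matrix (Fin 2) (Fin 2) k) (v : Fin 2 → k)
    (hv : v ≠ 0) : Subgroup G where
  carrier := {g | ∃ c : k, (R g).mulVec v = c • v}
  one_mem' := ⟨1, by simp⟩
  mul_mem' := by
    rintro a b ⟨c, hc⟩ ⟨d, hd⟩
    refine ⟨d * c, ?_⟩
    rw [map_mul, ← Matrix.mulVec_mulVec, hd, Matrix.mulVec_smul, hc, smul_smul]
  inv_mem' := by
    rintro a ⟨c, hc⟩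
    have h1 : (R a⁻¹).mulVec ((R a).mulVec v) = v := by
      rw [Matrix.mulVec_mulVec, ← map_mul, inv_mul_cancel, map_one, Matrix.one_mulVec]
    have hc0 : c ≠ 0 := by
      rintro rfl
      rw [zero_smul] at hc
      rw [hc, Matrix.mulVec_zero] at h1
      exact hv h1.symm
    refine ⟨c⁻¹, ?_⟩
    rw [hc, Matrix.mulVec_smul] at h1
    rw [eq_inv_smul_iff₀ hc0]
    exact h1

theorem mem_eigStab {G : Type*} [Group G] (R : G →* Matrix (Fin 2) (Fin 2) k) (v : Fin 2 → k)
    (hv : v ≠ 0) (g : G) : g ∈ eigStab R v hv ↔ ∃ c : k, (R g).mulVec v = c • v := Iff.rfl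

/-- **Key lemma.**  Let `R : G → GL₂(k)` (char `k ≠ 2`), `H ⊴ G` with `G = ⟨g₀⟩ H`, such that
every element of `R(H)` has determinant `1` and trace `±2`, and `R(g₀)` has an eigenvector.
Then `R(G)` has a common eigenvector. -/
theorem exists_common_eigenvector_of_repeated
    (h2 : (2 : k) ≠ 0) {G : Type*} [Group G]
    (R : G →* Matrix (Fin 2) (Fin 2) k) (H : Subgroup G) [hN : H.Normal]
    (hH : ∀ h ∈ H, ∃ α : k, α ^ 2 = 1 ∧ (R h).trace = 2 * α ∧ (R h).det = 1)
    (g₀ : G) (hg₀ : ∀ g : G, ∃ j : ℤ, g * g₀ ^ j ∈ H)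
    (hev : ∃ v : Fin 2 → k, v ≠ 0 ∧ ∃ c : k, (R g₀).mulVec v = c • v) :
    ∃ v : Fin 2 → k, v ≠ 0 ∧ ∀ g : G, ∃ c : k, (R g).mulVec v = c • v := by
  by_cases hsc : ∀ h ∈ H, ∃ c : k, R h = c • (1 : Matrix (Fin 2) (Fin 2) k)
  · -- all of `R(H)` is scalar
    obtain ⟨v, hv, c, hc⟩ := hev
    refine ⟨v, hv, fun g => ?_⟩
    rw [← mem_eigStab R v hv]
    have hHle : H ≤ eigStab R v hv := by
      intro h hh
      obtain ⟨d, hd⟩ := hsc h hh
      exact ⟨d, by rw [hd, Matrix.smul_mulVec, Matrix.one_mulVec]⟩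
    have hg0 : g₀ ∈ eigStab R v hv := ⟨c, hc⟩
    obtain ⟨j, hj⟩ := hg₀ g
    have : g = (g * g₀ ^ j) * (g₀ ^ j)⁻¹ := by group
    rw [this]
    exact mul_mem (hHle hj) (inv_mem (zpow_mem hg0 j))
  · push Not at hsc
    obtain ⟨σ, hσ, hσns⟩ := hsc
    obtain ⟨α, hα, htu, hdu⟩ := hH σ hσ
    have hαα : α * α = 1 := by rw [← sq]; exact hα
    have hα0 : α ≠ 0 := by
      rintro rfl
      simp at hα
    set u := R σ with hu_def
    set ν : Matrix (Fin 2) (Fin 2) k := α • u - 1 with hν_def
    have hu : u = α • (1 + ν) := by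
      rw [hν_def, add_sub_cancel, smul_smul, hαα, one_smul]
    have hν0 : ν ≠ 0 := by
      intro h0
      rw [h0, add_zero] at hu
      exact hσns α hu
    have htν : ν.trace = 0 := by
      rw [hν_def, Matrix.trace_sub, Matrix.trace_smul, htu, Matrix.trace_one, smul_eq_mul]
      simp only [Fintype.card_fin, Nat.cast_ofNat]
      linear_combination 2 * hαα
    have hdν : ν.det = 0 := by
      rw [hν_def, det_smul_sub_one_fin_two, htu, hdu]
      linear_combination (-1 : k) * hα
    have hνν : ν * ν = 0 := nil_mul_self_fin_two ν htν hdν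
    have huu : u * u = 1 + (2 : k) • ν := by
      rw [hu, Matrix.smul_mul, Matrix.mul_smul, smul_smul, hαα, one_smul, mul_add, add_mul,
        add_mul, hνν, Matrix.one_mul, Matrix.mul_one, Matrix.one_mul, add_zero, two_smul,
        add_assoc]
    -- the key vanishing of traces
    have key : ∀ h ∈ H, (R h * ν).trace = 0 := by
      intro h hh
      obtain ⟨β₀, hβ₀, ht₀, -⟩ := hH h hh
      obtain ⟨β₁, hβ₁, ht₁, -⟩ := hH (h * σ) (mul_mem hh hσ)
      obtain ⟨β₂, hβ₂, ht₂, -⟩ := hH (h * σ * σ) (mul_mem (mul_mem hh hσ) hσ)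
      set c := (R h * ν).trace with hc
      have e1 : 2 * β₁ = α * (2 * β₀ + c) := by
        rw [← ht₁, ← ht₀, map_mul, ← hu_def, hu, Matrix.mul_smul, Matrix.trace_smul, mul_add,
          Matrix.mul_one, Matrix.trace_add, smul_eq_mul]
      have e2 : 2 * β₂ = 2 * β₀ + 2 * c := by
        rw [← ht₂, ← ht₀, map_mul, map_mul, ← hu_def, Matrix.mul_assoc, huu, mul_add,
          Matrix.mul_one, Matrix.trace_add, Matrix.mul_smul, Matrix.trace_smul, smul_eq_mul]
      have hA : 2 * (α * β₁) = β₂ + β₀ := by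
        have : (2 : k) * (2 * (α * β₁)) = 2 * (β₂ + β₀) := by
          linear_combination (2 * α) * e1 - e2 + (4 * β₀ + 2 * c) * hαα
        exact mul_left_cancel₀ h2 this
      have hB : β₂ * β₀ = 1 := by
        have : (2 : k) * (β₂ * β₀) = 2 * 1 := by
          linear_combination (-(2 * (α * β₁)) - (β₂ + β₀)) * hA - hβ₂ - hβ₀
            + 4 * β₁ ^ 2 * hα + 4 * hβ₁
        exact mul_left_cancel₀ h2 this
      have hC : β₂ = β₀ := by
        linear_combination β₀ * hB - β₂ * hβ₀
      have : (2 : k) * c = 2 * 0 := by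
        linear_combination (-1 : k) * e2 + 2 * hC
      exact mul_left_cancel₀ h2 this
    -- a nonzero vector in the image of `ν`
    obtain ⟨x, hx⟩ : ∃ x : Fin 2 → k, ν.mulVec x ≠ 0 := by
      by_contra hcon
      push Not at hcon
      apply hν0
      ext i j
      have := congrFun (hcon (Pi.single j 1)) i
      simpa using this
    refine ⟨ν.mulVec x, hx, fun g => ?_⟩
    rw [← mem_eigStab R _ hx]
    -- the product of the two traces vanishes
    have hprod : (R g * ν).trace * (R g⁻¹ * ν).trace = 0 := by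
      have hconj : g * σ * g⁻¹ ∈ H := hN.conj_mem σ hσ g
      have h0 := key _ hconj
      have hgg : R g * R g⁻¹ = 1 := by rw [← map_mul, mul_inv_cancel, map_one]
      have e : R (g * σ * g⁻¹) * ν = α • (ν + (R g⁻¹ * ν).trace • (R g * ν)) := by
        rw [map_mul, map_mul, ← hu_def, hu, Matrix.mul_smul, Matrix.smul_mul, Matrix.smul_mul,
          mul_add, Matrix.mul_one, add_mul, add_mul, hgg, Matrix.one_mul]
        congr 2
        rw [Matrix.mul_assoc (R g * ν), Matrix.mul_assoc (R g), ← Matrix.mul_assoc ν,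
          nil_mul_mul_nil_fin_two ν (R g⁻¹) htν hdν, Matrix.mul_smul]
      rw [e, Matrix.trace_smul, Matrix.trace_add, htν, zero_add, Matrix.trace_smul, smul_eq_mul,
        smul_eq_mul] at h0
      rcases mul_eq_zero.1 h0 with h | h
      · exact absurd h hα0
      · rw [mul_comm]; exact h
    have hmem : ∀ g' : G, (R g' * ν).trace = 0 → g' ∈ eigStab R (ν.mulVec x) hx := by
      intro g' hg'
      have h1 : ν * R g' * ν = 0 := by
        rw [nil_mul_mul_nil_fin_two ν (R g') htν hdν, hg', zero_smul]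
      have h2' : ν.mulVec ((R g').mulVec (ν.mulVec x)) = 0 := by
        rw [Matrix.mulVec_mulVec, Matrix.mulVec_mulVec, h1, Matrix.zero_mulVec]
      exact exists_smul_of_mulVec_eq_zero ν htν x _ hx h2'
    rcases mul_eq_zero.1 hprod with h | h
    · exact hmem g h
    · have := hmem g⁻¹ h
      simpa using inv_mem this

end Fermat.Agent.S56.H846
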