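import Fermat.Agent.S56.Spec
import Fermat.Agent.S56.H846.Mat2Reg

/-!
# S56 / P3, second half of `TWElementStatement` (helper846)

For every `n` there is `σ ∈ G_ℚ` fixing `μ_{p^{n+1}}` such that `ρ̄(σ)` has distinct eigenvalues
in `k`.  Uses only `habs`, `hsplit`, `hdet`, `p` odd (not `hTW`).

Reusable glue:
* `exists_cyclotomic_kernel` : the normal subgroup `H_n = G_{ℚ(ζ_{p^{n+1}})}` with `G_ℚ = ⟨g₀⟩ H_n`;
* `det_eq_natCast_of_isCycExp` : `det ρ̄(σ) = a` if `σ` acts on `μ_p` by `μ ↦ μ ^ a`;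
* `matRep` : `ρ̄` in matrix form, with `charpoly`, `det`, `mulVec` dictionaries;
* `not_exists_stable_line` : absolutely irreducible ⇒ no `G_ℚ`-stable line over `k`.
-/

set_option autoImplicit false

open Polynomial IsLocalRing
open scoped TensorProduct

noncomputable section

namespace Fermat.Agent.S56.H846

/-! ### The cyclotomic kernel -/

/-- For an odd prime `p`: the subgroup `H` of `G_ℚ` fixing `μ_{p^{n+1}}` is normal and
`G_ℚ = ⟨g₀⟩ H` for some `g₀`. -/
theorem exists_cyclotomic_kernel (p : ℕ) (hp : p.Prime) (hp2 : p ≠ 2) (n : ℕ) :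
    ∃ (H : Subgroup GQ) (_ : H.Normal) (g₀ : GQ),
      (∀ σ : GQ, σ ∈ H ↔ ∀ μ : Qb, μ ^ p ^ (n + 1) = 1 → σ μ = μ) ∧
      ∀ g : GQ, ∃ j : ℤ, g * g₀ ^ j ∈ H := by
  classical
  set N : ℕ := p ^ (n + 1) with hN
  have : NeZero N := ⟨pow_ne_zero _ hp.ne_zero⟩
  have : NeZero ((p : ℕ) : ℚ) := ⟨by exact_mod_cast hp.ne_zero⟩
  have hN1 : 1 < N := Nat.one_lt_pow (Nat.succ_ne_zero n) hp.one_lt
  obtain ⟨ζ, hζ⟩ := HasEnoughRootsOfUnity.exists_primitiveRoot (AlgebraicClosure ℚ) (p ^ (n + 1))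
  let χ : GQ →* (ZMod N)ˣ := hζ.autToPow ℚ
  have hχ : ∀ σ : GQ, ζ ^ ((χ σ : ZMod N)).val = σ ζ := fun σ => hζ.autToPow_spec ℚ σ
  have hker : ∀ σ : GQ, σ ∈ χ.ker ↔ ∀ μ : Qb, μ ^ p ^ (n + 1) = 1 → σ μ = μ := by
    intro σ
    rw [MonoidHom.mem_ker]
    constructor
    · intro h μ hμ
      have h1 : σ ζ = ζ := by
        rw [← hχ σ, h, Units.val_one, ZMod.val_one'' (Nat.ne_of_gt hN1), pow_one]
      obtain ⟨i, -, rfl⟩ := hζ.eq_pow_of_pow_eq_one hμ
      rw [map_pow, h1]
    · intro h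
      have h1 : σ ζ = ζ := h ζ hζ.pow_eq_one
      have h2 : ζ ^ ((χ σ : ZMod N)).val = ζ ^ 1 := by rw [hχ σ, h1, pow_one]
      have h3 : ((χ σ : ZMod N)).val = 1 :=
        hζ.pow_inj (ZMod.val_lt _) hN1 h2
      apply Units.ext
      rw [Units.val_one, ← ZMod.natCast_zmod_val (χ σ : ZMod N), h3, Nat.cast_one]
  have : IsCyclic (ZMod N)ˣ := ZMod.isCyclic_units_of_prime_pow p hp hp2 (n + 1)
  obtain ⟨⟨y, g₀, rfl⟩, hy⟩ := IsCyclic.exists_generator (α := χ.range)
  refine ⟨χ.ker, MonoidHom.normal_ker χ, g₀, hker, fun g => ?_⟩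
  obtain ⟨j, hj⟩ := Subgroup.mem_zpowers_iff.1 (hy ⟨χ g, g, rfl⟩)
  refine ⟨-j, ?_⟩
  rw [MonoidHom.mem_ker, map_mul, map_zpow, zpow_neg]
  have hj' : χ g₀ ^ j = χ g := by
    have := congrArg Subtype.val hj
    simpa using this
  rw [hj', mul_inv_cancel]


/-! ### The determinant -/

section Det

variable {k : Type} [Field k] (ρbar : ResidualGaloisRep k) (p : ℕ)

/-- If `det ρ̄` is the mod `p` cyclotomic character and `σ` acts on `μ_p` by `μ ↦ μ ^ a`, then
`det ρ̄(σ) = a`. -/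
theorem det_eq_natCast_of_isCycExp
    (hdet : (GaloisRepAdic.ofResidualGaloisRep ρbar).DetIsCyclotomic p)
    (σ : GQ) (a : ℕ) (ha : IsCycExp p σ a) : LinearMap.det (ρbar.ρ σ) = (a : k) := by
  have hp0 : ((p : ℕ) : k) = 0 := by
    have := hdet.1
    rw [IsLocalRing.maximalIdeal_eq_bot] at this
    exact this
  have h := hdet.2 1 σ a (fun μ hμ => ha μ (by simpa using hμ))
  rw [pow_one, hp0, Ideal.span_singleton_zero, Ideal.mem_bot, sub_eq_zero] at h
  exact h

/-- If `σ` fixes `μ_p` then `det ρ̄(σ) = 1`. -/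
theorem det_eq_one_of_fixes
    (hdet : (GaloisRepAdic.ofResidualGaloisRep ρbar).DetIsCyclotomic p)
    (σ : GQ) (hσ : ∀ μ : Qb, μ ^ p = 1 → σ μ = μ) : LinearMap.det (ρbar.ρ σ) = 1 := by
  have := det_eq_natCast_of_isCycExp ρbar p hdet σ 1 (fun μ hμ => by rw [pow_one]; exact hσ μ hμ)
  simpa using this

end Det

/-! ### Matrix form of `ρ̄` -/

section MatRep

variable {k : Type} [Field k] (ρbar : ResidualGaloisRep k)

/-- A basis of the space of `ρ̄`. -/
def stdBasis : Module.Basis (Fin 2) k ρbar.V :=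
  Module.finBasisOfFinrankEq k ρbar.V ρbar.finrank_eq

/-- `ρ̄` in matrix form with respect to `stdBasis`. -/
def matRep : GQ →* Matrix (Fin 2) (Fin 2) k where
  toFun σ := LinearMap.toMatrix (stdBasis ρbar) (stdBasis ρbar) (ρbar.ρ σ)
  map_one' := by rw [map_one]; exact LinearMap.toMatrix_one _
  map_mul' σ τ := by rw [map_mul]; exact LinearMap.toMatrix_mul _ _ _

theorem matRep_apply (σ : GQ) :
    matRep ρbar σ = LinearMap.toMatrix (stdBasis ρbar) (stdBasis ρbar) (ρbar.ρ σ) := rfl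

theorem charpoly_matRep (σ : GQ) : (matRep ρbar σ).charpoly = LinearMap.charpoly (ρbar.ρ σ) :=
  LinearMap.charpoly_toMatrix _ _

theorem det_matRep (σ : GQ) : (matRep ρbar σ).det = LinearMap.det (ρbar.ρ σ) :=
  LinearMap.det_toMatrix _ _

/-- Trace and determinant from a factorisation of the characteristic polynomial. -/
theorem trace_det_of_charpoly_eq (σ : GQ) (α β : k)
    (h : LinearMap.charpoly (ρbar.ρ σ) = (X - C α) * (X - C β)) :
    (matRep ρbar σ).trace = α + β ∧ (matRep ρbar σ).det = α * β := by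
  have h1 : (matRep ρbar σ).charpoly = (X - C α) * (X - C β) := by
    rw [charpoly_matRep]; exact h
  rw [Matrix.charpoly_fin_two] at h1
  have e : (X - C α) * (X - C β) = X ^ 2 - C (α + β) * X + C (α * β) := by
    simp only [map_add, map_mul]; ring
  rw [e] at h1
  have c1 := congrArg (fun q : k[X] => q.coeff 1) h1
  have c0 := congrArg (fun q : k[X] => q.coeff 0) h1
  simp only [coeff_add, coeff_sub, coeff_X_pow, coeff_C_mul, coeff_X_one,
    coeff_X_zero, mul_one, mul_zero, coeff_C] at c1 c0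
  norm_num at c1 c0
  exact ⟨by linear_combination -c1, c0⟩

/-- An eigenvector of the matrix gives an eigenvector of `ρ̄(σ)`. -/
theorem rho_apply_of_mulVec (σ : GQ) (v : Fin 2 → k) (c : k)
    (h : (matRep ρbar σ).mulVec v = c • v) :
    ρbar.ρ σ ((stdBasis ρbar).equivFun.symm v) = c • (stdBasis ρbar).equivFun.symm v := by
  apply (stdBasis ρbar).equivFun.injective
  rw [map_smul, LinearEquiv.apply_symm_apply]
  have := LinearMap.toMatrix_mulVec_repr (stdBasis ρbar) (stdBasis ρbar) (ρbar.ρ σ)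
    ((stdBasis ρbar).equivFun.symm v)
  rw [← matRep_apply] at this
  have hr : ((stdBasis ρbar).repr ((stdBasis ρbar).equivFun.symm v) : Fin 2 → k) = v := by
    have := (stdBasis ρbar).equivFun.apply_symm_apply v
    exact this
  rw [hr, h] at this
  rw [this]
  rfl

/-- An eigenvector of `ρ̄(σ)` gives an eigenvector of the matrix. -/
theorem mulVec_of_rho_apply (σ : GQ) (w : ρbar.V) (c : k) (h : ρbar.ρ σ w = c • w) :
    (matRep ρbar σ).mulVec ((stdBasis ρbar).equivFun w) = c • (stdBasis ρbar).equivFun w := by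
  have := LinearMap.toMatrix_mulVec_repr (stdBasis ρbar) (stdBasis ρbar) (ρbar.ρ σ) w
  rw [← matRep_apply, h] at this
  rw [← map_smul]
  exact this

end MatRep


/-! ### Absolutely irreducible ⇒ no stable line -/

section Irr

variable {k : Type} [Field k] (ρbar : ResidualGaloisRep k)

/-- An absolutely irreducible `ρ̄` has no `G_ℚ`-stable line (over `k`). -/
theorem not_exists_stable_line (habs : ρbar.IsAbsolutelyIrreducible) :
    ¬ ∃ w : ρbar.V, w ≠ 0 ∧ ∀ σ : GQ, ∃ c : k, ρbar.ρ σ w = c • w := by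
  rintro ⟨w, hw, hstab⟩
  let x : AlgebraicClosure k ⊗[k] ρbar.V := (1 : AlgebraicClosure k) ⊗ₜ[k] w
  have hx : x ≠ 0 := by
    intro h
    apply hw
    have hinj := Module.Flat.tensorProduct_mk_injective k ρbar.V (AlgebraicClosure k)
    apply hinj
    rw [map_zero]
    exact h
  let W : Submodule (AlgebraicClosure k) (AlgebraicClosure k ⊗[k] ρbar.V) :=
    Submodule.span (AlgebraicClosure k) {x}
  have hWstab : ∀ σ : GQ, ∀ y ∈ W, (ρbar.baseChange (AlgebraicClosure k)).ρ σ y ∈ W := by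
    intro σ y hy
    obtain ⟨a, rfl⟩ := Submodule.mem_span_singleton.1 hy
    obtain ⟨c, hc⟩ := hstab σ
    have e : (ρbar.baseChange (AlgebraicClosure k)).ρ σ x =
        (algebraMap k (AlgebraicClosure k) c) • x := by
      show (ρbar.ρ σ).baseChange (AlgebraicClosure k) ((1 : AlgebraicClosure k) ⊗ₜ[k] w) = _
      rw [LinearMap.baseChange_tmul, hc, TensorProduct.tmul_smul, algebraMap_smul]
    rw [map_smul, e]
    exact Submodule.smul_mem _ _ (Submodule.smul_mem _ _ (Submodule.mem_span_singleton_self x))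
  rcases habs W hWstab with h | h
  · exact hx (Submodule.span_singleton_eq_bot.1 h)
  · have h1 : Module.finrank (AlgebraicClosure k) W = 2 := by
      rw [h, finrank_top, Module.finrank_baseChange, ρbar.finrank_eq]
    have h2 : Module.finrank (AlgebraicClosure k) W = 1 := finrank_span_singleton hx
    omega

end Irr

/-! ### The regular element -/

/-- **Second half of `TWElementStatement`.**  For every `n` there is `σ` fixing `μ_{p^{n+1}}`
with `ρ̄(σ)` having two distinct eigenvalues in `k`. -/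
theorem exists_regular_element
    {𝒪 : Type} [CommRing 𝒪] [IsDomain 𝒪] [IsDiscreteValuationRing 𝒪]
    (p : ℕ) (ρbar : ResidualGaloisRep (ResidueField 𝒪)) (S Smin : Finset ℕ)
    (h : Hyp 𝒪 p ρbar S Smin) (n : ℕ) :
    ∃ σ : GQ, (∀ μ : Qb, μ ^ p ^ (n + 1) = 1 → σ μ = μ) ∧
      ∃ α β : ResidueField 𝒪, α ≠ β ∧
        LinearMap.charpoly (ρbar.ρ σ) = (X - C α) * (X - C β) := by
  obtain ⟨H, hN, g₀, hH, hg₀⟩ := exists_cyclotomic_kernel p h.hp h.hp2 n
  by_contra hcon
  push Not at hcon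
  -- characteristic
  have hp0 : ((p : ℕ) : ResidueField 𝒪) = 0 := by
    have := h.hdet.1
    rw [IsLocalRing.maximalIdeal_eq_bot] at this
    exact this
  have h2 : (2 : ResidueField 𝒪) ≠ 0 := by
    intro h2
    obtain ⟨m, hm⟩ := (Nat.Prime.eq_two_or_odd' h.hp).resolve_left h.hp2
    rw [hm] at hp0
    push_cast at hp0
    rw [h2, zero_mul, zero_add] at hp0
    exact one_ne_zero hp0
  -- elements of `H` have a repeated eigenvalue `±1`
  have hHrep : ∀ σ ∈ H, ∃ α : ResidueField 𝒪, α ^ 2 = 1 ∧ (matRep ρbar σ).trace = 2 * α ∧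
      (matRep ρbar σ).det = 1 := by
    intro σ hσ
    have hfix := (hH σ).1 hσ
    obtain ⟨α, β, hαβ⟩ := h.hsplit σ
    by_cases hab : α = β
    · subst hab
      obtain ⟨ht, hd⟩ := trace_det_of_charpoly_eq ρbar σ α α hαβ
      have hd1 : (matRep ρbar σ).det = 1 := by
        rw [det_matRep]
        refine det_eq_one_of_fixes ρbar p h.hdet σ (fun μ hμ => hfix μ ?_)
        rw [pow_succ', pow_mul, hμ, one_pow]
      refine ⟨α, ?_, ?_, hd1⟩
      · rw [sq, ← hd, hd1]
      · rw [ht, two_mul]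
    · exact absurd hαβ (hcon σ hfix α β hab)
  -- an eigenvector of `ρ̄(g₀)`
  have hev : ∃ v : Fin 2 → ResidueField 𝒪, v ≠ 0 ∧
      ∃ c : ResidueField 𝒪, (matRep ρbar g₀).mulVec v = c • v := by
    obtain ⟨α, β, hαβ⟩ := h.hsplit g₀
    have hroot : (LinearMap.charpoly (ρbar.ρ g₀)).IsRoot α := by
      rw [hαβ, IsRoot, eval_mul, eval_sub, eval_X, eval_C, sub_self, zero_mul]
    have hev := (Module.End.hasEigenvalue_iff_isRoot_charpoly (ρbar.ρ g₀) α).2 hroot
    obtain ⟨w, hw⟩ := hev.exists_hasEigenvector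
    refine ⟨(stdBasis ρbar).equivFun w, ?_, α, ?_⟩
    · intro h0
      exact hw.2 ((stdBasis ρbar).equivFun.map_eq_zero_iff.1 h0)
    · exact mulVec_of_rho_apply ρbar g₀ w α hw.apply_eq_smul
  obtain ⟨v, hv, hall⟩ :=
    exists_common_eigenvector_of_repeated h2 (matRep ρbar) H hHrep g₀ hg₀ hev
  apply not_exists_stable_line ρbar h.habs
  refine ⟨(stdBasis ρbar).equivFun.symm v, ?_, fun σ => ?_⟩
  · intro h0
    exact hv ((stdBasis ρbar).equivFun.symm.map_eq_zero_iff.1 h0)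
  · obtain ⟨c, hc⟩ := hall σ
    exact ⟨c, rho_apply_of_mulVec ρbar σ v c hc⟩

end Fermat.Agent.S56.H846

end
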